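/-
S48, block BB, sub-block TOP (architect helper89).  SKELETON: every `sorry` is ONE task = ONE file.
-/
import Fermat.Agent.S48.BB.Top.Contract
import Fermat.Agent.S48.BB.Top.FreeAct
import Fermat.Agent.S48.BB.Top.Index
import Fermat.Agent.S48.BB.Top.Eigen
import Fermat.Agent.S48.BB.ResNode5
import Fermat.Agent.Lib.Frobenius

set_option autoImplicit false

noncomputable section

namespace Fermat.Agent.S48.BB.Top.WIP

open Fermat.Agent.S48.BB.Top
open CongruenceSubgroup ModularGroup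
open scoped MatrixGroups ModularForm

/-! ### TOP-L  Lattice.lean : `Hom(Γ, -)` for a finitely generated group (Mathlib + Contract) -/

section Lattice

variable {Γ : Type*} [Group Γ] (X : Set Γ)

theorem comp_mem_homK {A B : Type*} [AddCommGroup A] [AddCommGroup B] (g : A →+ B)
    {φ : Additive Γ →+ A} (hφ : φ ∈ homK X A) : g.comp φ ∈ homK X B := by
  sorry

theorem finite_hom_of_fg [Group.FG Γ] (A : Type*) [AddCommGroup A] [Finite A] :
    Finite (Additive Γ →+ A) := by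
  sorry

theorem free_homK_int [Group.FG Γ] : Module.Free ℤ (homK X ℤ) := by
  sorry

theorem finite_homK_int [Group.FG Γ] : Module.Finite ℤ (homK X ℤ) := by
  sorry

theorem exists_eq_nsmul_of_cast_eq_zero (n : ℕ) (hn : 0 < n) (φ : Additive Γ →+ ℤ)
    (hφ : φ ∈ homK X ℤ) (h : (Int.castAddHom (ZMod n)).comp φ = 0) :
    ∃ ψ ∈ homK X ℤ, φ = n • ψ := by
  sorry

/-- every complex valued homomorphism killing `X` is a complex combination of integral ones -/
theorem exists_decomp [Group.FG Γ] (ψ : Additive Γ →+ ℂ) (hψ : ψ ∈ homK X ℂ) :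
    ∃ (r : ℕ) (z : Fin r → ℂ) (φ : Fin r → Additive Γ →+ ℤ), (∀ k, φ k ∈ homK X ℤ) ∧
      ψ = ∑ k, (AddMonoidHom.mulLeft (z k)).comp ((Int.castAddHom ℂ).comp (φ k)) := by
  sorry

end Lattice

/-! ### TOP-O  Occ.lean : the abstract occurrence theorem -/

theorem occ {Γ : Type} [Group Γ] [Group.FG Γ] (X : Set Γ) {ι : Type} (ops : ι → NatOp Γ)
    (hmem : ∀ (i : ι) (ψ : Additive Γ →+ ℤ), ψ ∈ homK X ℤ → (ops i).op ℤ ψ ∈ homK X ℤ)
    (n : ℕ) (hn : 0 < n) (P : FreeAlgebra ℤ ι)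
    (hP : ∀ ψ ∈ homK X (ZMod n), act (fun i => (ops i).op (ZMod n)) P ψ = 0) :
    ∃ S : Polynomial ℤ, S.Monic ∧ (∀ i < S.natDegree, (n : ℤ) ∣ S.coeff i) ∧
      ∀ ψ ∈ homK X ℂ, act (fun i => (ops i).op ℂ) (Polynomial.aeval P S) ψ = 0 := by
  sorry

/-- a monic integral polynomial whose lower coefficients are divisible by `ℓ` has only the root `0`
in characteristic `ℓ` -/
theorem eq_zero_of_aeval_eq_zero {κ : Type*} [Field κ] (ℓ : ℕ) [CharP κ ℓ] (S : Polynomial ℤ)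
    (hS : S.Monic) (hdiv : ∀ i < S.natDegree, (ℓ : ℤ) ∣ S.coeff i) (t : κ)
    (h : Polynomial.aeval t S = 0) : t = 0 := by
  sorry

/-! ### TOP-T  Theta.lean : an operator killing `h` is killed by the eigencharacter -/

theorem theta_eq_zero {M : ℕ} [NeZero M] {TH DH : OpFam M} (Hb : HBlock M TH DH)
    (χ : DirichletCharacter ℂ M) (h : CuspForm (Gamma1 M) 2) (hneb : IsNeb χ h)
    {κ : Type} [Field κ] (φ : Zbar →+* κ) (b : ℕ → Zbar) (x : ZMod M → Zbar) (c : ℕ → κ)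
    (hb : ∀ n, (b n : ℂ) = ModularFormClass.qCoeff h n) (hx : ∀ u, (x u : ℂ) = χ u)
    (h1 : φ (b 1) ≠ 0)
    (heig : ∀ p : ℕ, p.Prime → ¬ p ∣ M → ∀ n : ℕ,
      φ (b (p * n)) + φ (x (p : ZMod M)) * (p : κ) * (if p ∣ n then φ (b (n / p)) else 0)
        = c p * φ (b n))
    (Q : FreeAlgebra ℤ (Idx M)) (hQ : act (gens Hb.TS Hb.DS) Q h = 0) :
    FreeAlgebra.lift ℤ (gens (fun p _ _ => c p) (fun p _ _ => φ (x (p : ZMod M)))) Q = 0 := by
  sorry

/-! ### TOP-C  Comm.lean : the operators commute on `W` -/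

theorem commute_gens {M n : ℕ} {TH DH : OpFam M} (pk : KummerPackage1 M n TH DH)
    (Hb : HBlock M TH DH) (hn : ∀ p : ℕ, p.Prime → ¬ p ∣ M → ¬ p ∣ n) (i j : Idx M) (w : pk.W) :
    gens pk.T pk.D i (gens pk.T pk.D j w) = gens pk.T pk.D j (gens pk.T pk.D i w) := by
  sorry

/-! ### TOP-F  FinLevel.lean : finite level -/

theorem exists_finiteLevel {W : Type*} [AddCommGroup W] [Finite W] (ρ : GQ → W →+ W)
    (openStab : ∀ w : W, ∃ L : IntermediateField ℚ (AlgebraicClosure ℚ), FiniteDimensional ℚ L ∧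
      ∀ σ : GQ, (∀ x ∈ L, σ x = x) → ρ σ w = w) :
    ∃ L : IntermediateField ℚ (AlgebraicClosure ℚ), FiniteDimensional ℚ L ∧
      ∀ σ : GQ, (∀ x ∈ L, σ x = x) → ∀ w, ρ σ w = w := by
  sorry

end Fermat.Agent.S48.BB.Top.WIP

end
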